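/-
S35-GEO, leaf (DICT-NEW) of helper27's design (report 2985), by helper91 (tasks 582).

The binding interface `H27.B2newExact N q p`

  "`(σ² - 1)(σ² - q²)` kills the `p`-power torsion of the `q`-new part of `J₀(N q)`"

reduced to a statement about FUNCTIONS (`KummerNew N q p`):  for a Frobenius lift `σ` at `q`, `m = p ^ n`
and a Kummer generator `u` (`m ∣ div u`) whose two norms `N_α u`, `N_β u` to level `N` have divisors
divisible by `m` in the principal sense (`div N u = m · div h`), the function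

  `S w / w ^ (q ^ 2)`,   `w = S u / u`,   `S = σ ∘ σ` (acting through `arithmeticGalois`),

has divisor `m · div W`.

* `ord_twisted_quot`, `twisted_smul_eq_zero` : the abstract dictionary (any `K`, `F`), the
  `Q`-twisted analogue of `S34.H92.smul_sub_smul_sub_eq_zero`;
* `ord_normAlong_eq` : `degAlpha`/`degBeta`-type vanishing of a class gives `div N u = m · div h`;
* `KummerNew`, `b2newExact_of_kummerNew`;
* `KummerNewPow` (hypotheses and conclusion in the form `f = c · h ^ m`),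
  `kummerNew_of_pow`, `b2newExact_of_kummerNewPow`.
-/
import Mathlib
import Fermat.Agent.S35.H27.B2Defs
import Fermat.Agent.S34.H92.Dict
import Fermat.Agent.S18.H78.ConstGeneric
import Fermat.Agent.S18.H55.DegJ

set_option autoImplicit false

open AlgebraicCurve ModularCurve

noncomputable section

namespace Fermat.Agent.S35.H91

open Fermat.Agent.S24 (Kbar FF jgen)
open Fermat.Agent.S29.H60 (normAlong isIntegral_FF finiteAlong_FF normFormulaAlong_FF)
open Fermat.Agent.S34.H92 (ord_smul_eq ord_div_eq smul_ne_zero' ord_eq_of_eq_smul_pow)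

section Abstract

variable {K F : Type*} [Field K] [Field F] [Algebra K F]

/-- The divisor of `s(w) / w ^ Q`, `w = s(u) / u`. -/
theorem ord_twisted_quot (s : SemilinearAut K F) (Q : ℕ) (v : Place K F) {u : F} (hu : u ≠ 0) :
    v.ord (s • (s • u / u) / (s • u / u) ^ Q)
      = (s⁻¹ • s⁻¹ • v).ord u - ((Q : ℤ) + 1) * (s⁻¹ • v).ord u + (Q : ℤ) * v.ord u := by
  have hsu : s • u ≠ 0 := smul_ne_zero' s hu
  have hw : s • u / u ≠ 0 := div_ne_zero hsu hu
  have hsw : s • (s • u / u) ≠ 0 := smul_ne_zero' s hw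
  rw [ord_div_eq v hsw (pow_ne_zero Q hw), ord_smul_eq s v, ord_div_eq _ hsu hu,
    ← zpow_natCast, v.ord_zpow, ord_div_eq _ hsu hu, ord_smul_eq s, ord_smul_eq s]
  ring

/-- **Abstract dictionary, `Q`-twisted.**  If `m · D = div u` and the function `s(w) / w ^ Q`,
`w = s(u) / u`, has divisor `m · div W`, then `(s - Q)(s - 1)` kills the class of `D`. -/
theorem twisted_smul_eq_zero (s : SemilinearAut K F) (Q m : ℕ) (hm : m ≠ 0)
    (D : Divisor.degZero (K := K) (F := F)) {u W : F} (hu0 : u ≠ 0) (hW0 : W ≠ 0)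
    (hu : ∀ v : Place K F, (m : ℤ) * (D : Divisor K F) v = v.ord u)
    (hW : ∀ v : Place K F, v.ord (s • (s • u / u) / (s • u / u) ^ Q) = m * v.ord W) :
    s • s • Pic0.mk D - (Q + 1) • s • Pic0.mk D + Q • Pic0.mk D = 0 := by
  rw [SemilinearAut.pic0_smul_mk, SemilinearAut.pic0_smul_mk]
  set E : Divisor.degZero (K := K) (F := F) :=
    SemilinearAut.degZeroSMulHom s (SemilinearAut.degZeroSMulHom s D)
      - (Q + 1) • SemilinearAut.degZeroSMulHom s D + Q • D with hE
  have hmk : Pic0.mk (SemilinearAut.degZeroSMulHom s (SemilinearAut.degZeroSMulHom s D))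
      - (Q + 1) • Pic0.mk (SemilinearAut.degZeroSMulHom s D) + Q • Pic0.mk D = Pic0.mk E := rfl
  rw [hmk]
  refine (QuotientAddGroup.eq_zero_iff E).mpr (AddSubgroup.mem_addSubgroupOf.mpr ?_)
  refine ⟨W, hW0, fun v => ?_⟩
  have hEv : (E : Divisor K F) v
      = (D : Divisor K F) (s⁻¹ • s⁻¹ • v) - ((Q : ℤ) + 1) * (D : Divisor K F) (s⁻¹ • v)
        + (Q : ℤ) * (D : Divisor K F) v := by
    rw [hE]
    simp only [AddSubgroup.coe_add, AddSubgroup.coe_sub, AddSubgroup.coe_nsmul,
      SemilinearAut.coe_degZeroSMulHom, Finsupp.add_apply, Finsupp.sub_apply, Finsupp.smul_apply,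
      SemilinearAut.divisor_smul_apply, nsmul_eq_mul]
    push_cast
    ring
  have hm' : (m : ℤ) ≠ 0 := by exact_mod_cast hm
  apply mul_left_cancel₀ hm'
  rw [← hW v, ord_twisted_quot s Q v hu0, hEv, ← hu, ← hu, ← hu]
  ring

end Abstract

section Norm

variable {A B : ℕ} [NeZero A] [NeZero B] (φ : FF A →ₐ[Kbar] FF B)

/-- If the push-forward of the class of `D` along `φ` vanishes and `m · D = div u`, then the
norm of `u` along `φ` has divisor `m · div h`. -/
theorem ord_normAlong_eq (m : ℕ) (D : Divisor.degZero (K := Kbar) (F := FF B)) {u : FF B}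
    (hu0 : u ≠ 0) (hu : ∀ v : Place Kbar (FF B), (m : ℤ) * (D : Divisor Kbar (FF B)) v = v.ord u)
    (hpush : Fermat.Agent.S35.H60.pushPic φ (Pic0.mk D) = 0) :
    ∃ h : FF A, h ≠ 0 ∧ ∀ v : Place Kbar (FF A), v.ord (normAlong φ u) = (m : ℤ) * v.ord h := by
  -- the push-forward of `D` is principal
  have hmem : Fermat.Agent.S35.H60.pushDegZero φ D
      ∈ (Divisor.principal (K := Kbar) (F := FF A)).addSubgroupOf
        (Divisor.degZero (K := Kbar) (F := FF A)) :=
    (QuotientAddGroup.eq_zero_iff _).mp hpush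
  rw [AddSubgroup.mem_addSubgroupOf] at hmem
  obtain ⟨h, hh0, hh⟩ := hmem
  refine ⟨h, hh0, fun v => ?_⟩
  -- the norm formula for `m • D = div u`
  have hN := normFormulaAlong_FF φ
  have hD' : ∀ w : Place Kbar (FF B), (m • (D : Divisor Kbar (FF B))) w = w.ord u := by
    intro w
    rw [Finsupp.smul_apply, nsmul_eq_mul]
    exact hu w
  have h1 : (Divisor.pushforwardAlong φ (isIntegral_FF φ) (m • (D : Divisor Kbar (FF B)))) v
      = v.ord (normAlong φ u) := hN u hu0 _ hD' v
  rw [← h1, map_nsmul, Finsupp.smul_apply, nsmul_eq_mul, ← hh v,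
    Fermat.Agent.S35.H60.coe_pushDegZero]

end Norm

section Modular

open Fermat.Agent.S35.H27 (Qbar frobPoly B2newExact)

/-- **The Kummer statement for the `q`-new part** (divisor form).  For a Frobenius lift `σ` at
`q`, `g := arithmeticGalois σ` on the function field of level `N q`, and a function `u ≠ 0` with
`p ^ n ∣ div u` whose norms along `α` and `β` have divisors `p ^ n · div h`: the function
`S w / w ^ (q ^ 2)`, `w = S u / u`, `S = g ∘ g`, has divisor `p ^ n · div W`. -/
def KummerNew (N q p : ℕ) [NeZero N] [NeZero q] : Prop :=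
  ∀ (n : ℕ) (A : ValuationSubring Qbar), A.LiesOverPrime q →
    ∀ σ : Qbar ≃ₐ[ℚ] Qbar, A.IsFrobeniusAt σ q →
      ∀ u : FF (N * q), u ≠ 0 →
        (∀ v : Place Kbar (FF (N * q)), ((p ^ n : ℕ) : ℤ) ∣ v.ord u) →
        (∃ h : FF N, h ≠ 0 ∧ ∀ v : Place Kbar (FF N),
          v.ord (normAlong (heckeAlphaBar Kbar N q) u) = ((p ^ n : ℕ) : ℤ) * v.ord h) →
        (∃ h : FF N, h ≠ 0 ∧ ∀ v : Place Kbar (FF N),
          v.ord (normAlong (heckeBetaBar Kbar N q) u) = ((p ^ n : ℕ) : ℤ) * v.ord h) →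
        ∃ W : FF (N * q), W ≠ 0 ∧ ∀ v : Place Kbar (FF (N * q)),
          v.ord
            (arithmeticGalois (modularFunctionFieldFull (N * q)) σ •
                arithmeticGalois (modularFunctionFieldFull (N * q)) σ •
                  (arithmeticGalois (modularFunctionFieldFull (N * q)) σ •
                    arithmeticGalois (modularFunctionFieldFull (N * q)) σ • u / u)
              / (arithmeticGalois (modularFunctionFieldFull (N * q)) σ •
                    arithmeticGalois (modularFunctionFieldFull (N * q)) σ • u / u) ^ (q ^ 2))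
            = ((p ^ n : ℕ) : ℤ) * v.ord W

/-- **(DICT-NEW).**  `B2newExact N q p` from the Kummer statement `KummerNew N q p`. -/
theorem b2newExact_of_kummerNew (N q p : ℕ) [NeZero N] [NeZero q] (hp : p ≠ 0)
    (hk : KummerNew N q p) : B2newExact N q p := by
  intro n A hA σ hσ x hx ha hb
  obtain ⟨D, rfl⟩ := Pic0.mk_surjective x
  -- the Kummer generator
  have hmD : Pic0.mk ((p ^ n) • D) = 0 := hx
  have hprin : (((p ^ n) • D : Divisor.degZero (K := Kbar) (F := FF (N * q))) :
      Divisor Kbar (FF (N * q))) ∈ Divisor.principal (K := Kbar) (F := FF (N * q)) := by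
    have := (QuotientAddGroup.eq_zero_iff ((p ^ n) • D)).mp hmD
    exact AddSubgroup.mem_addSubgroupOf.mp this
  obtain ⟨u, hu0, hu⟩ := hprin
  have hu' : ∀ v : Place Kbar (FF (N * q)),
      ((p ^ n : ℕ) : ℤ) * (D : Divisor Kbar (FF (N * q))) v = v.ord u := by
    intro v
    rw [← hu v, AddSubgroup.coe_nsmul, Finsupp.smul_apply, nsmul_eq_mul]
  -- the two norms
  have hα := ord_normAlong_eq (heckeAlphaBar Kbar N q) (p ^ n) D hu0 hu' ha
  have hβ := ord_normAlong_eq (heckeBetaBar Kbar N q) (p ^ n) D hu0 hu' hb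
  obtain ⟨W, hW0, hW⟩ := hk n A hA σ hσ u hu0 (fun v => ⟨_, (hu' v).symm⟩) hα hβ
  -- the abstract dictionary with `s = g * g`
  set g := arithmeticGalois (modularFunctionFieldFull (N * q)) σ with hg
  have hW' : ∀ v : Place Kbar (FF (N * q)),
      v.ord ((g * g) • ((g * g) • u / u) / ((g * g) • u / u) ^ (q ^ 2))
        = ((p ^ n : ℕ) : ℤ) * v.ord W := by
    intro v
    rw [mul_smul, mul_smul]
    exact hW v
  have key := twisted_smul_eq_zero (g * g) (q ^ 2) (p ^ n) (pow_ne_zero n hp) D hu0 hW0 hu' hW'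
  have hσ2 : ∀ y : JZero (N * q), σ • σ • y = (g * g) • y := by
    intro y
    rw [mul_smul]
    rfl
  unfold frobPoly
  rw [hσ2 (σ • σ • Pic0.mk D), hσ2 (Pic0.mk D)]
  exact key

/-- **The Kummer statement for the `q`-new part** (power form): hypotheses
`N_α u = c · h ^ m`, `N_β u = c' · h' ^ m`, conclusion `S w / w ^ (q ^ 2) = c'' · W ^ m`. -/
def KummerNewPow (N q p : ℕ) [NeZero N] [NeZero q] : Prop :=
  ∀ (n : ℕ) (A : ValuationSubring Qbar), A.LiesOverPrime q →
    ∀ σ : Qbar ≃ₐ[ℚ] Qbar, A.IsFrobeniusAt σ q →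
      ∀ u : FF (N * q), u ≠ 0 →
        (∀ v : Place Kbar (FF (N * q)), ((p ^ n : ℕ) : ℤ) ∣ v.ord u) →
        (∃ (c : Kbar) (h : FF N), c ≠ 0 ∧ h ≠ 0 ∧
          normAlong (heckeAlphaBar Kbar N q) u = algebraMap Kbar (FF N) c * h ^ (p ^ n)) →
        (∃ (c : Kbar) (h : FF N), c ≠ 0 ∧ h ≠ 0 ∧
          normAlong (heckeBetaBar Kbar N q) u = algebraMap Kbar (FF N) c * h ^ (p ^ n)) →
        ∃ (c : Kbar) (W : FF (N * q)), c ≠ 0 ∧ W ≠ 0 ∧
          arithmeticGalois (modularFunctionFieldFull (N * q)) σ •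
                arithmeticGalois (modularFunctionFieldFull (N * q)) σ •
                  (arithmeticGalois (modularFunctionFieldFull (N * q)) σ •
                    arithmeticGalois (modularFunctionFieldFull (N * q)) σ • u / u)
              / (arithmeticGalois (modularFunctionFieldFull (N * q)) σ •
                    arithmeticGalois (modularFunctionFieldFull (N * q)) σ • u / u) ^ (q ^ 2)
            = algebraMap Kbar (FF (N * q)) c * W ^ (p ^ n)

/-- A function of level `N` whose divisor is `m · div h` is `c · h ^ m` for a nonzero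
constant `c`. -/
theorem exists_eq_smul_pow (N : ℕ) [NeZero N] (m : ℕ) {f h : FF N} (hf : f ≠ 0) (hh : h ≠ 0)
    (hord : ∀ v : Place Kbar (FF N), v.ord f = (m : ℤ) * v.ord h) :
    ∃ c : Kbar, c ≠ 0 ∧ f = algebraMap Kbar (FF N) c * h ^ m := by
  have hhm : h ^ m ≠ 0 := pow_ne_zero m hh
  have hord' : ∀ v : Place Kbar (FF N), v.ord (f * (h ^ m)⁻¹) = 0 := by
    intro v
    rw [v.ord_mul hf (inv_ne_zero hhm), v.ord_inv, ← zpow_natCast, v.ord_zpow, hord v]
    ring
  have := Fermat.Agent.S18.H55.finiteDimensional_jgen N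
  obtain ⟨c, hc⟩ := Fermat.Agent.S18.H78.const_of_forall_ord_eq_zero (k := Kbar) (jgen N)
    (f * (h ^ m)⁻¹) hord'
  have hc0 : c ≠ 0 := by
    rintro rfl
    rw [map_zero] at hc
    exact mul_ne_zero hf (inv_ne_zero hhm) hc
  exact ⟨c, hc0, by rw [← hc, mul_assoc, inv_mul_cancel₀ hhm, mul_one]⟩

/-- The power form implies the divisor form. -/
theorem kummerNew_of_pow (N q p : ℕ) [NeZero N] [NeZero q] (hk : KummerNewPow N q p) :
    KummerNew N q p := by
  intro n A hA σ hσ u hu0 hdvd hα hβ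
  have hNα : normAlong (heckeAlphaBar Kbar N q) u ≠ 0 := by
    let _ := algebraAlong (heckeAlphaBar Kbar N q)
    have : Module.Finite (FF N) (FF (N * q)) := finiteAlong_FF (heckeAlphaBar Kbar N q)
    exact Algebra.norm_ne_zero_iff.mpr hu0
  have hNβ : normAlong (heckeBetaBar Kbar N q) u ≠ 0 := by
    let _ := algebraAlong (heckeBetaBar Kbar N q)
    have : Module.Finite (FF N) (FF (N * q)) := finiteAlong_FF (heckeBetaBar Kbar N q)
    exact Algebra.norm_ne_zero_iff.mpr hu0
  obtain ⟨h₁, hh₁, hord₁⟩ := hα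
  obtain ⟨h₂, hh₂, hord₂⟩ := hβ
  obtain ⟨c₁, hc₁, e₁⟩ := exists_eq_smul_pow N (p ^ n) hNα hh₁ hord₁
  obtain ⟨c₂, hc₂, e₂⟩ := exists_eq_smul_pow N (p ^ n) hNβ hh₂ hord₂
  obtain ⟨c, W, hc, hW, heq⟩ := hk n A hA σ hσ u hu0 hdvd ⟨c₁, h₁, hc₁, hh₁, e₁⟩
    ⟨c₂, h₂, hc₂, hh₂, e₂⟩
  exact ⟨W, hW, fun v => ord_eq_of_eq_smul_pow (p ^ n) hc hW heq v⟩

/-- **(DICT-NEW), power form.** -/
theorem b2newExact_of_kummerNewPow (N q p : ℕ) [NeZero N] [NeZero q] (hp : p ≠ 0)
    (hk : KummerNewPow N q p) : B2newExact N q p :=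
  b2newExact_of_kummerNew N q p hp (kummerNew_of_pow N q p hk)

end Modular

end Fermat.Agent.S35.H91
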