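/-
S35-GEO (helper91, tasks 582): the dictionary (DICT-NEW) in the EXACT consumer shape of the
S35-GEO root (`S35/H27/FrobModel.lean`, helper27):

* `b2newExact_of_kummerNewPow27 : H27.KummerNewPow N q p → H27.B2newExact N q p`
  (helper27's power form `σ² w = c · w ^ (q²) · W ^ m`, `w = σ² u / u`, in the vocabulary
  `S34.H30.FF / gal`, `S37.H36.normAlong`);
* `geoTargetNew_of_frobModel : H27.FrobModelStatement → H60.GeoTargetNew`
  (root ⇒ the geometric target consumed by helper60's TRANSFER-NEW);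
* `b2newStatement_of_frobModel : H27.FrobModelStatement → B2newStatement N q p` for all `N`
  with `q ∤ N`, `q ≠ p` primes — the binding interface `(B2new)` of the S35 top from the ONE
  open geometric leaf.
-/
import Mathlib
import Fermat.Agent.S35.H27.FrobModel
import Fermat.Agent.S35.H60.GeoTargetNew
import Fermat.Agent.S35.H91.DictNew

set_option autoImplicit false

open AlgebraicCurve ModularCurve

noncomputable section

namespace Fermat.Agent.S35.H91

open Fermat.Agent.S24 (Kbar FF)
open Fermat.Agent.S29.H60 (normAlong finiteAlong_FF)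
open Fermat.Agent.S34.H92 (smul_ne_zero' ord_eq_of_eq_smul_pow)

/-- helper27's power form of the Kummer statement implies the divisor form `KummerNew`. -/
theorem kummerNew_of_pow27 (N q p : ℕ) [NeZero N] [NeZero q]
    (hk : Fermat.Agent.S35.H27.KummerNewPow N q p) : KummerNew N q p := by
  intro n A hA σ hσ u hu0 hdvd hα hβ
  have hNα : normAlong (heckeAlphaBar Kbar N q) u ≠ 0 := by
    let _ := algebraAlong (heckeAlphaBar Kbar N q)
    have : Module.Finite (FF N) (FF (N * q)) := finiteAlong_FF (heckeAlphaBar Kbar N q)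
    exact Algebra.norm_ne_zero_iff.mpr hu0
  have hNβ : normAlong (heckeBetaBar Kbar N q) u ≠ 0 := by
    let _ := algebraAlong (heckeBetaBar Kbar N q)
    have : Module.Finite (FF N) (FF (N * q)) := finiteAlong_FF (heckeBetaBar Kbar N q)
    exact Algebra.norm_ne_zero_iff.mpr hu0
  obtain ⟨h₁, hh₁, hord₁⟩ := hα
  obtain ⟨h₂, hh₂, hord₂⟩ := hβ
  obtain ⟨c₁, -, e₁⟩ := exists_eq_smul_pow N (p ^ n) hNα hh₁ hord₁
  obtain ⟨c₂, -, e₂⟩ := exists_eq_smul_pow N (p ^ n) hNβ hh₂ hord₂
  obtain ⟨c, W, hW, heq⟩ := hk n A hA σ hσ u hu0 hdvd ⟨c₁, h₁, e₁⟩ ⟨c₂, h₂, e₂⟩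
  set g := arithmeticGalois (modularFunctionFieldFull (N * q)) σ with hg
  -- `w = S u / u ≠ 0`
  have hw : g • g • u / u ≠ 0 :=
    div_ne_zero (smul_ne_zero' g (smul_ne_zero' g hu0)) hu0
  have hSw : g • g • (g • g • u / u) ≠ 0 := smul_ne_zero' g (smul_ne_zero' g hw)
  have heq' : g • g • (g • g • u / u)
      = algebraMap Kbar (FF (N * q)) c * (g • g • u / u) ^ (q ^ 2) * W ^ (p ^ n) := heq
  have hc : c ≠ 0 := by
    rintro rfl
    rw [map_zero, zero_mul, zero_mul] at heq'
    exact hSw heq'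
  have h2 : g • g • (g • g • u / u) / (g • g • u / u) ^ (q ^ 2)
      = algebraMap Kbar (FF (N * q)) c * W ^ (p ^ n) := by
    rw [div_eq_iff (pow_ne_zero _ hw), heq']
    ring
  exact ⟨W, hW, fun v => ord_eq_of_eq_smul_pow (p ^ n) hc hW h2 v⟩

/-- **(DICT-NEW), consumer form**: helper27's `KummerNewPow N q p` gives `B2newExact N q p`. -/
theorem b2newExact_of_kummerNewPow27 (N q p : ℕ) [NeZero N] [NeZero q] (hp : p ≠ 0)
    (hk : Fermat.Agent.S35.H27.KummerNewPow N q p) : Fermat.Agent.S35.H27.B2newExact N q p :=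
  b2newExact_of_kummerNew N q p hp (kummerNew_of_pow27 N q p hk)

/-- The model leaf of S35-GEO gives the geometric target of S35. -/
theorem geoTargetNew_of_frobModel (hmodel : Fermat.Agent.S35.H27.FrobModelStatement) :
    Fermat.Agent.S35.H60.GeoTargetNew := by
  intro N' q p r _ _ _ hL
  have hp : p.Prime := hL.1.2.2.1
  exact b2newExact_of_kummerNewPow27 N' q p hp.ne_zero
    (Fermat.Agent.S35.H27.kummerNewPow_of_frobModel hmodel N' q p r hL)

/-- **`(B2new)` from the model leaf**: the binding interface of the S35 top at every level. -/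
theorem b2newStatement_of_frobModel (hmodel : Fermat.Agent.S35.H27.FrobModelStatement)
    (N q p : ℕ) [NeZero N] [NeZero q] (hq : q.Prime) (hp : p.Prime) (hqp : q ≠ p)
    (hqN : ¬ q ∣ N) : Fermat.Agent.S35.H27.B2newStatement N q p :=
  Fermat.Agent.S35.H60.b2newStatement_of_geoTargetNew (geoTargetNew_of_frobModel hmodel) N q p
    hq hp hqp hqN

end Fermat.Agent.S35.H91
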