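/-
S35-ALG (helper91): the coefficient embedding `iota` of the frozen S35 is automatically
INJECTIVE, so `chig h ≠ 0` implies `(iota.comp chig.rangeRestrict) h ≠ 0`.

In the frozen statement `iota : chig.range →+* O'` is an arbitrary ring homomorphism into a
domain of characteristic zero.  Since `chig.range` is a domain which is integral over `ℤ`
(`S22`: the Hecke algebra is a finite `ℤ`-module), the kernel of `iota` is an ideal meeting `ℤ`
trivially, hence zero.  This is what turns the conclusion `chig (P(T)) ≠ 0` of (NP1) into the
hypothesis `χ r.2 ≠ 0` of `S35.H90.KeyStatement` for `χ = iota.comp chig.rangeRestrict`.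
-/
import Mathlib
import Fermat.Agent.S22

set_option autoImplicit false

namespace Fermat.Agent.S35.H91

/-- A ring homomorphism from a domain which is integral over `ℤ` into a ring of characteristic
zero is injective. -/
theorem injective_of_isIntegral_int {A B : Type*} [CommRing A] [IsDomain A]
    [Algebra.IsIntegral ℤ A] [Ring B] [CharZero B] (f : A →+* B) : Function.Injective f := by
  rw [RingHom.injective_iff_ker_eq_bot]
  apply Ideal.eq_bot_of_comap_eq_bot (R := ℤ)
  rw [eq_bot_iff]
  intro n hn
  rw [Ideal.mem_comap, RingHom.mem_ker, eq_intCast, map_intCast, Int.cast_eq_zero] at hn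
  rw [Ideal.mem_bot]
  exact hn

/-- The range of a ring character of the Hecke algebra is integral over `ℤ`. -/
theorem isIntegral_range {M : ℕ} [NeZero M] (S : Set ℕ)
    (chig : CuspForm.heckeAlgebra M 2 S →+* ℂ) : Algebra.IsIntegral ℤ chig.range := by
  have hTfin : Module.Finite ℤ (CuspForm.heckeAlgebra M 2 S) := Fermat.Agent.S22.result M 2 S
  refine ⟨fun b => ?_⟩
  obtain ⟨t, rfl⟩ := chig.rangeRestrict_surjective b
  exact map_isIntegral_int chig.rangeRestrict (IsIntegral.of_finite ℤ t)

/-- **`iota` is injective.** -/
theorem iota_injective {M : ℕ} [NeZero M] (S : Set ℕ)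
    (chig : CuspForm.heckeAlgebra M 2 S →+* ℂ) {O' : Type*} [Ring O'] [CharZero O']
    (iota : chig.range →+* O') : Function.Injective iota := by
  have := isIntegral_range S chig
  exact injective_of_isIntegral_int iota

/-- `chig h ≠ 0` implies `(iota.comp chig.rangeRestrict) h ≠ 0`. -/
theorem iota_comp_ne_zero {M : ℕ} [NeZero M] (S : Set ℕ)
    (chig : CuspForm.heckeAlgebra M 2 S →+* ℂ) {O' : Type*} [Ring O'] [CharZero O']
    (iota : chig.range →+* O') {h : CuspForm.heckeAlgebra M 2 S} (hh : chig h ≠ 0) :
    (iota.comp chig.rangeRestrict) h ≠ 0 := by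
  intro h0
  have h1 : chig.rangeRestrict h = 0 := by
    apply iota_injective S chig iota
    rw [map_zero]
    exact h0
  exact hh (congrArg Subtype.val h1)

end Fermat.Agent.S35.H91
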