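/-
S35-ALG, leaf (OCC) of (NP1) (helper91, backup route of tasks 521).

**Every ring character of the (anemic) Hecke algebra of forms is the eigensystem of a
normalised eigenform**:

  `exists_eigenform_of_ringHom N S ψ` : for a ring homomorphism `ψ : heckeAlgebra N 2 S →+* ℂ`
  there is a normalised eigenform `g'` of level `N` with `a_ℓ(g') = ψ (T_ℓ)` for all primes
  `ℓ ∤ N`, `ℓ ∉ S`.

The point is that `ψ` is only a RING homomorphism (it need not be the restriction of a `ℂ`-linear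
character of the `ℂ`-span of the Hecke algebra): conjugate eigensystems have to be transported.
This is done with no lattice and no finite generation of `Γ₀(N)`, only with the naturality of
`heckeHom N ℓ A` in the coefficient group `A` (`S16.H75.heckeHom_comp`):

1. linear algebra: there is a common eigenvector `v ≠ 0` of the Hecke algebra whose
   eigencharacter `χ` satisfies `ker χ ⊆ ker ψ` (induction on stable subspaces);
2. `B := 𝕋 ⧸ ker χ` is a domain, integral over `ℤ` (`S22`), so `ψ` induces an INJECTIVE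
   `B →+* ℂ`; with `K := Frac B` we get two embeddings `ι, τ : K →+* ℂ`;
3. the period homomorphism `x` of `v` is an eigen-homomorphism `Γ₀(N) → ℂ` with eigenvalues in
   `ι K`; composing with a `K`-linear functional `π : ℂ → K` and with `τ` gives a nonzero
   parabolic eigen-homomorphism with eigenvalues `ψ (T_ℓ)`;
4. Eichler–Shimura (`S21`) and `S49` turn it into a normalised eigenform.
-/
import Mathlib
import Fermat.Agent.S21
import Fermat.Agent.S22
import Fermat.Agent.S16.H75.Gamma0Hecke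
import Fermat.Agent.S49.Forms
import Fermat.Agent.S49.LinAlg
import Fermat.Agent.S41.H40.FormsOfBetti

set_option autoImplicit false

open CongruenceSubgroup ModularCurve ModularCurve.Period
open Fermat.Agent.S16.H75 (heckeHom formOp)

namespace Fermat.Agent.S35.H91

/-! ### 1. Linear algebra -/

/-- A commutative ring `R` acting on a finite-dimensional complex vector space `V`, and a ring
character `ψ` of `R` killing the annihilator of `V`: there is a common eigenvector whose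
eigenvalue function `χ` satisfies `χ r = 0 → ψ r = 0`. -/
theorem exists_eigenvector_ker_le {R V : Type*} [CommRing R] [AddCommGroup V] [Module ℂ V]
    [FiniteDimensional ℂ V] (ρ : R →+* Module.End ℂ V) (ψ : R →+* ℂ)
    (hψ : ∀ r, ρ r = 0 → ψ r = 0) :
    ∃ v : V, v ≠ 0 ∧ ∃ χ : R → ℂ, (∀ r, ρ r v = χ r • v) ∧ ∀ r, χ r = 0 → ψ r = 0 := by
  classical
  set F : Set (Module.End ℂ V) := Set.range ρ with hF
  have hcomm : ∀ a ∈ F, ∀ b ∈ F, Commute a b := by
    rintro a ⟨r, rfl⟩ b ⟨s, rfl⟩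
    show ρ r * ρ s = ρ s * ρ r
    rw [← map_mul, ← map_mul, mul_comm]
  have hcomm' : ∀ (r s : R) (w : V), ρ r (ρ s w) = ρ s (ρ r w) := by
    intro r s w
    have h1 : ρ r * ρ s = ρ s * ρ r := by rw [← map_mul, ← map_mul, mul_comm]
    exact congrArg (fun f : Module.End ℂ V => f w) h1
  have key : ∀ (n : ℕ) (E : Submodule ℂ V), Module.finrank ℂ E = n →
      (∀ r, ∀ w ∈ E, ρ r w ∈ E) → (∀ r, (∀ w ∈ E, ρ r w = 0) → ψ r = 0) →
      ∃ v ∈ E, v ≠ 0 ∧ ∃ χ : R → ℂ, (∀ r, ρ r v = χ r • v) ∧ ∀ r, χ r = 0 → ψ r = 0 := by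
    intro n
    induction n using Nat.strong_induction_on with
    | _ n ih =>
      intro E hn hstab hkill
      have hE : E ≠ ⊥ := by
        rintro rfl
        have h1 := hkill 1 (fun w hw => by
          rw [Submodule.mem_bot] at hw
          rw [hw, map_zero])
        rw [map_one] at h1
        exact one_ne_zero h1
      obtain ⟨v, hvE, hv0, hv⟩ := Fermat.Agent.S49.exists_common_eigenvector F hcomm _ E rfl hE
        (by rintro a ⟨r, rfl⟩ w hw; exact hstab r w hw)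
      have hχex : ∀ r : R, ∃ μ : ℂ, ρ r v = μ • v := fun r => hv (ρ r) ⟨r, rfl⟩
      choose χ hχ using hχex
      by_cases hgood : ∀ r, χ r = 0 → ψ r = 0
      · exact ⟨v, hvE, hv0, χ, hχ, hgood⟩
      · push Not at hgood
        obtain ⟨t₀, ht₀χ, ht₀ψ⟩ := hgood
        set E' : Submodule ℂ V := E.map (ρ t₀) with hE'
        have hE'le : E' ≤ E := by
          rintro _ ⟨w, hw, rfl⟩
          exact hstab t₀ w hw
        have hlt : Module.finrank ℂ E' < Module.finrank ℂ E := by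
          set f : E →ₗ[ℂ] V := (ρ t₀).domRestrict E with hf
          have hrange : LinearMap.range f = E' := by
            rw [hf, LinearMap.range_domRestrict]
          have hker : LinearMap.ker f ≠ ⊥ := by
            intro hbot
            have hmem : (⟨v, hvE⟩ : E) ∈ LinearMap.ker f := by
              rw [LinearMap.mem_ker]
              show ρ t₀ v = 0
              rw [hχ t₀, ht₀χ, zero_smul]
            rw [hbot, Submodule.mem_bot] at hmem
            exact hv0 (congrArg Subtype.val hmem)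
          have h1 := LinearMap.finrank_range_add_finrank_ker f
          have h2 : 0 < Module.finrank ℂ (LinearMap.ker f) := by
            obtain ⟨w, hw, hw0⟩ := Submodule.exists_mem_ne_zero_of_ne_bot hker
            exact Module.finrank_pos_iff_exists_ne_zero.mpr
              ⟨⟨w, hw⟩, fun h0 => hw0 (congrArg Subtype.val h0)⟩
          rw [hrange] at h1
          omega
        obtain ⟨v', hv'E', hv'0, χ', hχ', hgood'⟩ :=
          ih (Module.finrank ℂ E') (hn ▸ hlt) E' rfl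
            (by
              rintro r _ ⟨w, hw, rfl⟩
              exact ⟨ρ r w, hstab r w hw, hcomm' t₀ r w⟩)
            (by
              intro r hr
              have h1 : ψ (r * t₀) = 0 := hkill (r * t₀) (fun w hw => by
                rw [map_mul]
                exact hr (ρ t₀ w) ⟨w, hw, rfl⟩)
              rw [map_mul] at h1
              exact (mul_eq_zero.mp h1).resolve_right ht₀ψ)
        exact ⟨v', hE'le hv'E', hv'0, χ', hχ', hgood'⟩
  obtain ⟨v, -, hv0, χ, hχ, hgood⟩ := key _ ⊤ rfl (fun _ _ _ => Submodule.mem_top)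
    (fun r hr => hψ r (LinearMap.ext fun w => hr w Submodule.mem_top))
  exact ⟨v, hv0, χ, hχ, hgood⟩

/-- The eigenvalue function of a common eigenvector is a ring homomorphism. -/
theorem exists_ringHom_of_eigen {R V : Type*} [CommRing R] [AddCommGroup V] [Module ℂ V]
    (ρ : R →+* Module.End ℂ V) (v : V) (hv0 : v ≠ 0) (χ : R → ℂ)
    (hχ : ∀ r, ρ r v = χ r • v) :
    ∃ χ' : R →+* ℂ, ∀ r, χ' r = χ r := by
  have hinj : Function.Injective fun c : ℂ => c • v := smul_left_injective ℂ hv0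
  refine ⟨{ toFun := χ, map_one' := ?_, map_mul' := ?_, map_zero' := ?_, map_add' := ?_ },
    fun _ => rfl⟩
  · apply hinj
    show χ 1 • v = (1 : ℂ) • v
    rw [← hχ, map_one, one_smul]
    rfl
  · intro a b
    apply hinj
    show χ (a * b) • v = (χ a * χ b) • v
    rw [← hχ, map_mul, Module.End.mul_apply, hχ b, map_smul, hχ a, smul_smul, mul_comm]
  · apply hinj
    show χ 0 • v = (0 : ℂ) • v
    rw [← hχ, map_zero, zero_smul]
    rfl
  · intro a b
    apply hinj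
    show χ (a + b) • v = (χ a + χ b) • v
    rw [← hχ, map_add, LinearMap.add_apply, hχ a, hχ b, add_smul]

/-! ### 2. Transport of eigen-homomorphisms along two embeddings of a field -/

/-- If `x : Γ₀(N) → ℂ` is a nonzero parabolic homomorphism which is an eigenvector of the
`heckeHom N ℓ ℂ`, `ℓ ∈ I`, with eigenvalues `ι (β ℓ)` in the image of a field embedding
`ι : K → ℂ`, then for every other embedding `τ : K → ℂ` there is a nonzero parabolic
eigen-homomorphism with eigenvalues `τ (β ℓ)`. -/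
theorem exists_eigenHom_transport (N : ℕ) (I : Set Nat.Primes)
    (x : Additive (Gamma0 N) →+ ℂ) (hx : IsParabolicHom (Gamma0 N) x) (hx0 : x ≠ 0)
    {K : Type*} [Field K] (ι τ : K →+* ℂ) (β : Nat.Primes → K)
    (h : ∀ ℓ ∈ I, heckeHom N ℓ ℂ x = ι (β ℓ) • x) :
    ∃ w : Additive (Gamma0 N) →+ ℂ, IsParabolicHom (Gamma0 N) w ∧ w ≠ 0 ∧
      ∀ ℓ ∈ I, heckeHom N ℓ ℂ w = τ (β ℓ) • w := by
  classical
  obtain ⟨γ₀, hγ₀⟩ : ∃ γ, x γ ≠ 0 := by
    by_contra hcon
    push Not at hcon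
    exact hx0 (AddMonoidHom.ext hcon)
  letI : Module K ℂ := Module.compHom ℂ ι
  have hsmul : ∀ (k : K) (z : ℂ), k • z = ι k * z := fun _ _ => rfl
  obtain ⟨π, hπ⟩ : ∃ π : ℂ →ₗ[K] K, π (x γ₀) ≠ 0 := by
    by_contra hcon
    push Not at hcon
    exact hγ₀ ((Module.forall_dual_apply_eq_zero_iff K (x γ₀)).mp hcon)
  set φ : ℂ →+ ℂ := τ.toAddMonoidHom.comp π.toAddMonoidHom with hφ
  have hφapply : ∀ z, φ z = τ (π z) := fun _ => rfl
  refine ⟨φ.comp x, ?_, ?_, ?_⟩
  · intro γ hγ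
    show φ (x (Additive.ofMul γ)) = 0
    rw [hx γ hγ, map_zero]
  · intro h0
    have h1 : φ (x γ₀) = 0 := congrArg (fun f : Additive (Gamma0 N) →+ ℂ => f γ₀) h0
    rw [hφapply] at h1
    exact hπ ((map_eq_zero τ).mp h1)
  · intro ℓ hℓ
    rw [Fermat.Agent.S16.H75.heckeHom_comp, h ℓ hℓ]
    refine AddMonoidHom.ext fun γ => ?_
    show φ (ι (β ℓ) * x γ) = τ (β ℓ) * φ (x γ)
    rw [hφapply, hφapply, ← hsmul, map_smul, smul_eq_mul, map_mul]

/-! ### 3. From eigen-homomorphisms to eigenforms (partial (T4)) -/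

/-- A nonzero parabolic `v : Γ₀(M) → ℂ`, eigen for `heckeHom M ℓ ℂ` with eigenvalue `lam ℓ` for
`ℓ ∈ I`, gives a normalised eigenform `g` of level `M` with `a_ℓ(g) = lam ℓ` for `ℓ ∈ I`. -/
theorem exists_eigenform_of_hom (M : ℕ) [NeZero M] (I : Set Nat.Primes)
    (v : Additive (Gamma0 M) →+ ℂ) (hv0 : v ≠ 0) (hvpar : IsParabolicHom (Gamma0 M) v)
    (lam : Nat.Primes → ℂ) (hlam : ∀ ℓ ∈ I, heckeHom M ℓ ℂ v = lam ℓ • v) :
    ∃ g : CuspForm (Gamma0 M) 2, g.IsNormalizedEigenform ∧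
      ∀ ℓ ∈ I, ModularFormClass.qCoeff g (ℓ : ℕ) = lam ℓ := by
  classical
  obtain ⟨hinj, hrange⟩ := Fermat.Agent.S21.result M
  have hvmem : v ∈ LinearMap.range (periodHomPair M) := by
    rw [hrange]; exact hvpar
  obtain ⟨⟨g₁, g₂⟩, hg⟩ := hvmem
  have heig : ∀ ℓ ∈ I, formOp M ℓ g₁ = lam ℓ • g₁ ∧ formOp M ℓ g₂ = lam ℓ • g₂ := by
    intro ℓ hℓ
    have h1 : periodHomPair M (formOp M ℓ g₁, formOp M ℓ g₂) =
        periodHomPair M (lam ℓ • (g₁, g₂)) := by
      rw [Fermat.Agent.S16.H75.periodHomPair_formOp, hg, hlam ℓ hℓ, map_smul, hg]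
    have h2 := hinj h1
    rw [Prod.smul_mk] at h2
    exact ⟨(Prod.mk.inj h2).1, (Prod.mk.inj h2).2⟩
  let E : Submodule ℂ (CuspForm (Gamma0 M) 2) :=
    { carrier := {g | ∀ ℓ ∈ I, formOp M ℓ g = lam ℓ • g}
      zero_mem' := fun ℓ _ => by rw [map_zero, smul_zero]
      add_mem' := by
        intro a b ha hb ℓ hℓ
        rw [map_add, ha ℓ hℓ, hb ℓ hℓ, smul_add]
      smul_mem' := by
        intro c a ha ℓ hℓ
        rw [map_smul, ha ℓ hℓ, smul_comm] }
  have hEmem : ∀ g, g ∈ E ↔ ∀ ℓ ∈ I, formOp M ℓ g = lam ℓ • g := fun _ => Iff.rfl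
  have hne : g₁ ≠ 0 ∨ g₂ ≠ 0 := by
    by_contra hcon
    rw [not_or, not_not, not_not] at hcon
    apply hv0
    rw [← hg, hcon.1, hcon.2]
    exact map_zero _
  have hEbot : E ≠ ⊥ := by
    rcases hne with h | h
    · intro hbot
      have : g₁ ∈ E := (hEmem g₁).2 fun ℓ hℓ => (heig ℓ hℓ).1
      rw [hbot] at this
      exact h ((Submodule.mem_bot ℂ).1 this)
    · intro hbot
      have : g₂ ∈ E := (hEmem g₂).2 fun ℓ hℓ => (heig ℓ hℓ).2
      rw [hbot] at this
      exact h ((Submodule.mem_bot ℂ).1 this)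
  have hfin : Module.Finite ℂ (CuspForm (Gamma0 M) 2) :=
    (Fermat.Agent.S21.H21.finrank_cuspForm_le M).1
  let S : Set (Module.End ℂ (CuspForm (Gamma0 M) 2)) :=
    Set.range (fun ℓ : Nat.Primes => formOp M ℓ)
  have hS : ∀ a ∈ S, ∀ b ∈ S, Commute a b := by
    rintro a ⟨ℓ, rfl⟩ b ⟨ℓ', rfl⟩
    exact Fermat.Agent.S41.H40.formOp_commute M ℓ ℓ'
  have hstab : ∀ a ∈ S, ∀ w ∈ E, a w ∈ E := by
    rintro a ⟨ℓ', rfl⟩ w hw
    rw [hEmem] at hw ⊢
    intro ℓ hℓ
    show formOp M ℓ (formOp M ℓ' w) = lam ℓ • formOp M ℓ' w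
    rw [Fermat.Agent.S41.H40.formOp_comm_apply, hw ℓ hℓ, map_smul]
  obtain ⟨g, hgE, hg0, hgeig⟩ :=
    Fermat.Agent.S49.exists_common_eigenvector S hS (Module.finrank ℂ E) E rfl hEbot hstab
  have hμex : ∀ ℓ : Nat.Primes, ∃ μ : ℂ, formOp M ℓ g = μ • g := fun ℓ => hgeig _ ⟨ℓ, rfl⟩
  choose μ hμ using hμex
  rw [hEmem] at hgE
  have hμI : ∀ ℓ ∈ I, μ ℓ = lam ℓ := by
    intro ℓ hℓ
    have h1 : (μ ℓ - lam ℓ) • g = 0 := by
      rw [sub_smul, ← hμ ℓ, hgE ℓ hℓ, sub_self]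
    rcases smul_eq_zero.1 h1 with h | h
    · exact sub_eq_zero.1 h
    · exact absurd h hg0
  let μ' : ℕ → ℂ := fun n => if h : n.Prime then μ ⟨n, h⟩ else 0
  have hμ' : ∀ (ℓ : ℕ) (hℓ : ℓ.Prime), μ' ℓ = μ ⟨ℓ, hℓ⟩ := fun ℓ hℓ => dif_pos hℓ
  obtain ⟨f, hf, hfμ⟩ := Fermat.Agent.S49.exists_normalized_of_eigenvector g hg0 μ'
    (fun ℓ hℓ hℓM => by
      rw [hμ' ℓ hℓ, ← Fermat.Agent.S41.H40.formOp_of_not_dvd hℓ hℓM]; exact hμ ⟨ℓ, hℓ⟩)
    (fun ℓ hℓ hℓM => by
      rw [hμ' ℓ hℓ, ← Fermat.Agent.S41.H40.formOp_of_dvd hℓ hℓM]; exact hμ ⟨ℓ, hℓ⟩)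
  refine ⟨f, hf, fun ℓ hℓ => ?_⟩
  rw [hfμ ℓ ℓ.2, hμ' ℓ ℓ.2]
  exact hμI ℓ hℓ

/-! ### 4. The occurrence lemma -/

/-- **(OCC)** Every ring character `ψ` of the Hecke algebra `heckeAlgebra N 2 S` of forms of
level `N` is the `T_ℓ`-eigensystem of a normalised eigenform of level `N`. -/
theorem exists_eigenform_of_ringHom (N : ℕ) [NeZero N] (S : Set ℕ)
    (ψ : CuspForm.heckeAlgebra N 2 S →+* ℂ) :
    ∃ g' : CuspForm (Gamma0 N) 2, g'.IsNormalizedEigenform ∧
      ∀ (ℓ : ℕ) (hℓ : ℓ.Prime) (hℓN : ¬ ℓ ∣ N) (hℓS : ℓ ∉ S),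
        ModularFormClass.qCoeff g' ℓ = ψ (CuspForm.heckeAlgebra.T hℓ hℓN hℓS) := by
  classical
  have hfin : Module.Finite ℂ (CuspForm (Gamma0 N) 2) :=
    (Fermat.Agent.S21.H21.finrank_cuspForm_le N).1
  have hTfin : Module.Finite ℤ (CuspForm.heckeAlgebra N 2 S) := Fermat.Agent.S22.result N 2 S
  -- the inclusion of the Hecke algebra as a ring homomorphism
  let ρ : CuspForm.heckeAlgebra N 2 S →+* Module.End ℂ (CuspForm (Gamma0 N) 2) :=
    { toFun := fun t => t.1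
      map_one' := rfl
      map_mul' := fun _ _ => rfl
      map_zero' := rfl
      map_add' := fun _ _ => rfl }
  have hρ : ∀ r, ρ r = 0 → ψ r = 0 := by
    intro r hr
    have h0 : r = 0 := Subtype.ext hr
    rw [h0, map_zero]
  obtain ⟨v, hv0, χ₀, hχ₀, hker₀⟩ := exists_eigenvector_ker_le ρ ψ hρ
  obtain ⟨χ, hχeq⟩ := exists_ringHom_of_eigen ρ v hv0 χ₀ hχ₀
  have hχ : ∀ r, ρ r v = χ r • v := fun r => by rw [hχeq]; exact hχ₀ r
  have hker : ∀ r, χ r = 0 → ψ r = 0 := fun r hr => hker₀ r (by rw [← hχeq]; exact hr)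
  -- the quotient domain `B` and its two embeddings
  have hprime : (RingHom.ker χ).IsPrime := RingHom.ker_isPrime χ
  let B := CuspForm.heckeAlgebra N 2 S ⧸ RingHom.ker χ
  let χb : B →+* ℂ := RingHom.kerLift χ
  have hχb : Function.Injective χb := RingHom.kerLift_injective χ
  let ψb : B →+* ℂ := Ideal.Quotient.lift (RingHom.ker χ) ψ
    (fun a ha => hker a ((RingHom.mem_ker).mp ha))
  have hint : Algebra.IsIntegral ℤ B := ⟨fun b => by
    obtain ⟨t, rfl⟩ := Ideal.Quotient.mk_surjective b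
    exact map_isIntegral_int (Ideal.Quotient.mk (RingHom.ker χ)) (IsIntegral.of_finite ℤ t)⟩
  have hψb : Function.Injective ψb := by
    rw [RingHom.injective_iff_ker_eq_bot]
    apply Ideal.eq_bot_of_comap_eq_bot (R := ℤ)
    rw [eq_bot_iff]
    intro n hn
    rw [Ideal.mem_comap, RingHom.mem_ker, eq_intCast, map_intCast, Int.cast_eq_zero] at hn
    rw [Ideal.mem_bot]
    exact hn
  let K := FractionRing B
  let ι : K →+* ℂ := IsFractionRing.lift hχb
  let τ : K →+* ℂ := IsFractionRing.lift hψb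
  -- the period homomorphism of `v`
  obtain ⟨hinj, hrange⟩ := Fermat.Agent.S21.result N
  set x : Additive (Gamma0 N) →+ ℂ := periodHomPair N (v, 0) with hx
  have hxpar : IsParabolicHom (Gamma0 N) x := by
    have h1 : x ∈ LinearMap.range (periodHomPair N) := LinearMap.mem_range_self _ _
    rw [hrange] at h1
    exact h1
  have hx0 : x ≠ 0 := by
    intro h0
    have h1 : (v, (0 : CuspForm (Gamma0 N) 2)) = 0 := hinj (by rw [← hx, h0, map_zero])
    exact hv0 (congrArg Prod.fst h1)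
  let I : Set Nat.Primes := {ℓ | ¬ (ℓ : ℕ) ∣ N ∧ (ℓ : ℕ) ∉ S}
  let Tl : Nat.Primes → CuspForm.heckeAlgebra N 2 S := fun ℓ =>
    if h : ¬ (ℓ : ℕ) ∣ N ∧ (ℓ : ℕ) ∉ S then CuspForm.heckeAlgebra.T ℓ.2 h.1 h.2 else 0
  have hTl : ∀ (ℓ : Nat.Primes) (h : ¬ (ℓ : ℕ) ∣ N ∧ (ℓ : ℕ) ∉ S),
      Tl ℓ = CuspForm.heckeAlgebra.T ℓ.2 h.1 h.2 := fun ℓ h => dif_pos h
  let β : Nat.Primes → K := fun ℓ => algebraMap B K (Ideal.Quotient.mk (RingHom.ker χ) (Tl ℓ))
  have hιβ : ∀ ℓ, ι (β ℓ) = χ (Tl ℓ) := by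
    intro ℓ
    show IsFractionRing.lift hχb (algebraMap B K _) = _
    rw [IsFractionRing.lift_algebraMap]
    rfl
  have hτβ : ∀ ℓ, τ (β ℓ) = ψ (Tl ℓ) := by
    intro ℓ
    show IsFractionRing.lift hψb (algebraMap B K _) = _
    rw [IsFractionRing.lift_algebraMap]
    rfl
  have hxeig : ∀ ℓ ∈ I, heckeHom N ℓ ℂ x = ι (β ℓ) • x := by
    intro ℓ hℓ
    have h2 : formOp N ℓ v = χ (Tl ℓ) • v := by
      rw [← hχ, hTl ℓ hℓ]
      show formOp N ℓ v = CuspForm.heckeTLin 2 ℓ.2 hℓ.1 v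
      exact Fermat.Agent.S41.H40.formOp_of_not_dvd ℓ.2 hℓ.1 v
    rw [hιβ, hx, ← Fermat.Agent.S16.H75.periodHomPair_formOp, h2, map_zero, ← map_smul,
      Prod.smul_mk, smul_zero]
  obtain ⟨w, hwpar, hw0, hweig⟩ := exists_eigenHom_transport N I x hxpar hx0 ι τ β hxeig
  obtain ⟨g', hg', hcoef⟩ :=
    exists_eigenform_of_hom N I w hw0 hwpar (fun ℓ => τ (β ℓ)) hweig
  refine ⟨g', hg', fun ℓ hℓ hℓN hℓS => ?_⟩
  have h1 := hcoef ⟨ℓ, hℓ⟩ ⟨hℓN, hℓS⟩
  rw [h1, hτβ, hTl ⟨ℓ, hℓ⟩ ⟨hℓN, hℓS⟩]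

end Fermat.Agent.S35.H91
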